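import Fermat.Agent.S55.Local.Defs
import Fermat.Prelude.Thm_Algebra_finite_maximalSpectrum_and_bijective_localization_of_module_finite
import Fermat.Prelude.Thm_IsLocalRing_isAdicComplete_of_module_finite

/-!
# S55, layer L, piece LF0 (helper885): the ring of integers of a local field

AKLB-style setting: `A` a complete DVR, `F = Frac A`, `L / F` finite separable, `Algebra A L`
with `IsScalarTower A F L`.  Then `B := integralClosure A L` is a complete discrete valuation ring,
finite over `A`, with fraction field `L`; its residue field is finite when that of `A` is.
-/

set_option autoImplicit false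
set_option linter.style.haveILetI false
set_option linter.unusedSectionVars false

namespace Fermat.Agent.S55.Local.H885

open IsLocalRing

section Local

/-- A domain which is a finite algebra over a complete Noetherian local ring is local. -/
theorem isLocalRing_of_finite_of_complete (O B : Type) [CommRing O] [IsLocalRing O]
    [IsNoetherianRing O] [IsAdicComplete (maximalIdeal O) O]
    [CommRing B] [IsDomain B] [Algebra O B] [Module.Finite O B] : IsLocalRing B := by
  obtain ⟨-, hbij, -, -⟩ :=
    Algebra.finite_maximalSpectrum_and_bijective_localization_of_module_finite (𝒪 := O) B
  have : Subsingleton (MaximalSpectrum B) := by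
    refine ⟨fun I J => ?_⟩
    by_contra hIJ
    classical
    let e : ∀ K : MaximalSpectrum B, Localization.AtPrime K.asIdeal :=
      fun K => if K = I then 1 else 0
    let f : ∀ K : MaximalSpectrum B, Localization.AtPrime K.asIdeal :=
      fun K => if K = I then 0 else 1
    obtain ⟨e', he'⟩ := hbij.2 e
    obtain ⟨f', hf'⟩ := hbij.2 f
    have hef : e * f = 0 := by
      funext K
      by_cases hK : K = I <;> simp [e, f, hK]
    have h0 : e' * f' = 0 := by
      apply hbij.1
      rw [map_mul, he', hf', hef, map_zero]
    rcases mul_eq_zero.mp h0 with h | h
    · have : e I = 0 := by rw [← he', h, map_zero]; rfl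
      simp [e] at this
    · have : f J = 0 := by rw [← hf', h, map_zero]; rfl
      have hJI : ¬ J = I := fun h => hIJ h.symm
      simp [f, hJI] at this
  exact IsLocalRing.of_singleton_maximalSpectrum

end Local

section AKLB

variable (A F L : Type) [CommRing A] [IsDomain A] [IsDiscreteValuationRing A]
  [IsAdicComplete (maximalIdeal A) A]
  [Field F] [Algebra A F] [IsFractionRing A F]
  [Field L] [Algebra F L] [Algebra A L] [IsScalarTower A F L] [FiniteDimensional F L]
  [Algebra.IsSeparable F L]

include F in
theorem finite_OL : Module.Finite A (integralClosure A L) :=
  IsIntegralClosure.finite A F L _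

include F in
theorem isDedekindDomain_OL : IsDedekindDomain (integralClosure A L) :=
  integralClosure.isDedekindDomain A F L

include F in
theorem isFractionRing_OL : IsFractionRing (integralClosure A L) L :=
  integralClosure.isFractionRing_of_finite_extension F L

include F in
theorem isLocalRing_OL : IsLocalRing (integralClosure A L) := by
  haveI := finite_OL A F L
  exact isLocalRing_of_finite_of_complete A _

omit [IsDiscreteValuationRing A] [IsAdicComplete (maximalIdeal A) A] [FiniteDimensional F L]
  [Algebra.IsSeparable F L] [IsDomain A] in
include F in
theorem algebraMap_injective_AL : Function.Injective (algebraMap A L) := by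
  rw [IsScalarTower.algebraMap_eq A F L]
  exact (algebraMap F L).injective.comp (IsFractionRing.injective A F)

omit [IsDiscreteValuationRing A] [IsAdicComplete (maximalIdeal A) A] [FiniteDimensional F L]
  [Algebra.IsSeparable F L] [IsDomain A] in
include F in
theorem algebraMap_injective_AOL : Function.Injective (algebraMap A (integralClosure A L)) := by
  intro x y h
  apply algebraMap_injective_AL A F L
  have := congrArg (algebraMap (integralClosure A L) L) h
  simpa [← IsScalarTower.algebraMap_apply] using this

omit [IsDiscreteValuationRing A] [IsAdicComplete (maximalIdeal A) A] [FiniteDimensional F L]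
  [Algebra.IsSeparable F L] [IsDomain A] in
include F in
theorem faithfulSMul_AOL : FaithfulSMul A (integralClosure A L) :=
  (faithfulSMul_iff_algebraMap_injective A _).mpr (algebraMap_injective_AOL A F L)

omit [IsAdicComplete (maximalIdeal A) A] [FiniteDimensional F L] [Algebra.IsSeparable F L] in
include F in
theorem not_isField_OL : ¬ IsField (integralClosure A L) := by
  intro h
  have hA : IsField A :=
    isField_of_isIntegral_of_isField (algebraMap_injective_AOL A F L) h
  exact IsDiscreteValuationRing.not_isField A hA

include F in
theorem isDVR_OL : IsDiscreteValuationRing (integralClosure A L) := by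
  haveI := isLocalRing_OL A F L
  haveI := isDedekindDomain_OL A F L
  have hD : IsDedekindDomain (integralClosure A L) := isDedekindDomain_OL A F L
  exact ((IsDiscreteValuationRing.TFAE (integralClosure A L)
    (not_isField_OL A F L)).out 0 2).mpr hD

omit [IsDiscreteValuationRing A] [IsAdicComplete (maximalIdeal A) A] [FiniteDimensional F L]
  [Algebra.IsSeparable F L] [IsDomain A] in
include F in
theorem isLocalHom_AOL : IsLocalHom (algebraMap A (integralClosure A L)) := by
  haveI := faithfulSMul_AOL A F L
  infer_instance

include F in
theorem isAdicComplete_OL :
    letI := isLocalRing_OL A F L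
    IsAdicComplete (maximalIdeal (integralClosure A L)) (integralClosure A L) := by
  letI := isLocalRing_OL A F L
  haveI := finite_OL A F L
  haveI := isLocalHom_AOL A F L
  exact IsLocalRing.isAdicComplete_of_module_finite (𝒪 := A)

include F in
theorem finite_residueField_OL [Finite (ResidueField A)] :
    letI := isLocalRing_OL A F L
    Finite (ResidueField (integralClosure A L)) := by
  letI := isLocalRing_OL A F L
  haveI := finite_OL A F L
  haveI := isLocalHom_AOL A F L
  haveI : Module.Finite (ResidueField A) (ResidueField (integralClosure A L)) := inferInstance
  exact Module.finite_of_finite (ResidueField A)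

end AKLB

end Fermat.Agent.S55.Local.H885
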