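import Fermat.Agent.S55.Local.Spec
import Fermat.Agent.S55.Local.H885.LF0

/-!
# S55, layer L, pieces LF1, LF2, LF3, LF4, LF8 (helper885)
-/

set_option autoImplicit false
set_option linter.style.haveILetI false
set_option linter.unusedSectionVars false

namespace Fermat.Agent.S55.Local.H885

open IsLocalRing

/-! ### Generic facts about `IsInt` -/

section Generic

variable (A F : Type) [CommRing A] [Field F] [Algebra A F]
variable (L : Type) [Field L] [Algebra F L]

/-- `IsInt` is integrality for the algebra structure `(toL A F L).toAlgebra`. -/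
theorem isInt_iff_isIntegral (x : L) :
    IsInt A F L x ↔ @IsIntegral A L _ _ (toL A F L).toAlgebra x := Iff.rfl

variable {A F L} in
theorem IsInt.pow {x : L} (hx : IsInt A F L x) (n : ℕ) : IsInt A F L (x ^ n) := by
  induction n with
  | zero => simpa using isInt_one A F L
  | succ n ih => rw [pow_succ]; exact ih.mul hx

variable {A F L} in
theorem IsInt.sub {x y : L} (hx : IsInt A F L x) (hy : IsInt A F L y) : IsInt A F L (x - y) := by
  rw [sub_eq_add_neg]; exact hx.add hy.neg

variable {A F L} in
/-- An `F`-algebra homomorphism preserves integrality over `A`. -/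
theorem IsInt.map {L' : Type} [Field L'] [Algebra F L'] (f : L →ₐ[F] L') {x : L}
    (hx : IsInt A F L x) : IsInt A F L' (f x) := by
  obtain ⟨p, hp, hx⟩ := hx
  refine ⟨p, hp, ?_⟩
  have h : toL A F L' = (f : L →+* L').comp (toL A F L) := by
    ext a; simp [toL]
  have h2 := Polynomial.hom_eval₂ p (toL A F L) (f : L →+* L') x
  rw [hx, map_zero] at h2
  rw [h]
  exact h2.symm

variable {A F L} in
theorem isInt_map_iff {L' : Type} [Field L'] [Algebra F L'] (f : L →ₐ[F] L') {x : L} :
    IsInt A F L' (f x) ↔ IsInt A F L x := by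
  refine ⟨?_, IsInt.map f⟩
  rintro ⟨p, hp, hx⟩
  refine ⟨p, hp, ?_⟩
  have h : toL A F L' = (f : L →+* L').comp (toL A F L) := by
    ext a; simp [toL]
  have h2 := Polynomial.hom_eval₂ p (toL A F L) (f : L →+* L') x
  rw [h] at hx
  have h3 : (f : L →+* L') (Polynomial.eval₂ (toL A F L) x p) = 0 := h2.trans hx
  exact (f : L →+* L').injective (by rw [h3, map_zero])

theorem mem_intUnits_iff' (x : Lˣ) :
    x ∈ intUnits A F L ↔ IsInt A F L (x : L) ∧ IsInt A F L ((x : L)⁻¹) := by
  rw [mem_intUnits, Units.val_inv_eq_inv_val]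

end Generic

/-! ### LF1 : integers form a valuation ring -/

theorem intOrInv : IntOrInvStatement := by
  intro A F _ _ _ _ _ _ _ _ _ L _ _ _ x
  letI : Algebra A L := (toL A F L).toAlgebra
  haveI : IsScalarTower A F L := IsScalarTower.of_algebraMap_eq (fun _ => rfl)
  haveI := isDVR_OL A F L
  haveI := isFractionRing_OL A F L
  rcases ValuationRing.isInteger_or_isInteger (integralClosure A L) x with ⟨b, hb⟩ | ⟨b, hb⟩
  · left
    rw [← hb]
    exact b.2
  · right
    rw [← hb]
    exact b.2

/-! ### LF2 : existence of a uniformizer -/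

section LF2

variable (A F : Type) [CommRing A] [Field F] [Algebra A F]
variable (L : Type) [Field L] [Algebra F L]

/-- Units of the integral closure are integral units. -/
theorem unitsMap_mem_intUnits
    (u : (@integralClosure A L _ _ (toL A F L).toAlgebra)ˣ) (x : Lˣ)
    (hx : (x : L) = ((u : @integralClosure A L _ _ (toL A F L).toAlgebra) : L)) :
    x ∈ intUnits A F L := by
  letI : Algebra A L := (toL A F L).toAlgebra
  rw [mem_intUnits_iff']
  refine ⟨by rw [hx]; exact (u : integralClosure A L).2, ?_⟩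
  have h1 : ((u : integralClosure A L) : L) * (((u⁻¹ : (integralClosure A L)ˣ) :
      integralClosure A L) : L) = 1 := by
    rw [← Subalgebra.coe_mul, Units.mul_inv]; rfl
  have h2 : (x : L)⁻¹ = (((u⁻¹ : (integralClosure A L)ˣ) : integralClosure A L) : L) := by
    rw [hx]; exact inv_eq_of_mul_eq_one_right h1
  rw [h2]
  exact ((u⁻¹ : (integralClosure A L)ˣ) : integralClosure A L).2

end LF2

theorem existsUnif : ExistsUnifStatement := by
  intro A F _ _ _ _ _ _ _ _ _ L _ _ _
  letI : Algebra A L := (toL A F L).toAlgebra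
  haveI : IsScalarTower A F L := IsScalarTower.of_algebraMap_eq (fun _ => rfl)
  haveI := isDVR_OL A F L
  haveI := isFractionRing_OL A F L
  obtain ⟨π, hπ⟩ := IsDiscreteValuationRing.exists_irreducible (integralClosure A L)
  have hπ0 : (π : L) ≠ 0 := by
    intro h
    exact hπ.ne_zero (Subtype.ext h)
  refine ⟨Units.mk0 (π : L) hπ0, π.2, ?_, ?_⟩
  · intro h
    rw [mem_intUnits_iff'] at h
    have h2 : IsIntegral A ((π : L)⁻¹) := h.2
    apply hπ.not_isUnit
    refine IsUnit.of_mul_eq_one (⟨(π : L)⁻¹, h2⟩ : integralClosure A L) ?_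
    apply Subtype.ext
    simp [hπ0]
  · intro x
    obtain ⟨a, b, hb, hab⟩ := IsFractionRing.div_surjective (A := integralClosure A L) (x : L)
    have hb0 : b ≠ 0 := nonZeroDivisors.ne_zero hb
    have ha0 : a ≠ 0 := by
      rintro rfl
      rw [map_zero, zero_div] at hab
      exact x.ne_zero hab.symm
    obtain ⟨m, u, hu⟩ := IsDiscreteValuationRing.eq_unit_mul_pow_irreducible ha0 hπ
    obtain ⟨k, v, hv⟩ := IsDiscreteValuationRing.eq_unit_mul_pow_irreducible hb0 hπ
    refine ⟨(m : ℤ) - k, ?_⟩
    apply unitsMap_mem_intUnits A F L (u * v⁻¹)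
    have hvL : ((v : integralClosure A L) : L) ≠ 0 := by
      intro h
      exact v.ne_zero (Subtype.ext h)
    have hv1 : (((v⁻¹ : (integralClosure A L)ˣ) : integralClosure A L) : L) =
        ((v : integralClosure A L) : L)⁻¹ := by
      have h1 : ((v : integralClosure A L) : L) * (((v⁻¹ : (integralClosure A L)ˣ) :
          integralClosure A L) : L) = 1 := by
        rw [← Subalgebra.coe_mul, Units.mul_inv]; rfl
      exact eq_inv_of_mul_eq_one_right h1
    have hx : (x : L) = (((u : integralClosure A L) : L) * (π : L) ^ m) /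
        (((v : integralClosure A L) : L) * (π : L) ^ k) := by
      rw [← hab, hu, hv]
      simp
    simp only [Units.val_mul, Units.val_zpow_eq_zpow_val, Units.val_mk0, Subalgebra.coe_mul, hv1]
    rw [hx, neg_sub, zpow_sub₀ hπ0, zpow_natCast, zpow_natCast]
    field_simp

/-! ### LF3 : `U_L ∩ Kˣ = U_K` -/

section LF3

variable (A F : Type) [CommRing A] [Field F] [Algebra A F]
variable (K : Type) [Field K] [Algebra F K]
variable (L : Type) [Field L] [Algebra F L] [Algebra K L] [IsScalarTower F K L]

theorem isInt_algebraMap_iff (y : K) : IsInt A F L (algebraMap K L y) ↔ IsInt A F K y := by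
  have := isInt_map_iff (A := A) (IsScalarTower.toAlgHom F K L) (x := y)
  simpa using this

theorem unitsIncl_mem_intUnits_iff (y : Kˣ) :
    unitsIncl L K y ∈ intUnits A F L ↔ y ∈ intUnits A F K := by
  rw [mem_intUnits_iff', mem_intUnits_iff', unitsIncl_coe, ← map_inv₀,
    isInt_algebraMap_iff, isInt_algebraMap_iff]

end LF3

theorem intUnitsComap : IntUnitsComapStatement := by
  intro A F _ _ _ _ _ _ _ _ _ K _ _ _ L _ _ _ _ _ y
  exact unitsIncl_mem_intUnits_iff A F K L y

/-! ### LF8 : norms of integral units are integral units -/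

section LF8

variable (A F : Type) [CommRing A] [Field F] [Algebra A F]
variable (K : Type) [Field K] [Algebra F K]
variable (L : Type) [Field L] [Algebra F L] [Algebra K L] [IsScalarTower F K L]

theorem isInt_norm {x : L} (hx : IsInt A F L x) : IsInt A F K (Algebra.norm K x) := by
  letI : Algebra A K := (toL A F K).toAlgebra
  letI : Algebra A L := (toL A F L).toAlgebra
  haveI : IsScalarTower A K L := IsScalarTower.of_algebraMap_eq (fun a => by
    change toL A F L a = algebraMap K L (toL A F K a)
    simp [toL, ← IsScalarTower.algebraMap_apply F K L])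
  exact Algebra.isIntegral_norm K (R := A) (show IsIntegral A x from hx)

theorem normUnits_mem_intUnits {x : Lˣ} (hx : x ∈ intUnits A F L) :
    normUnits L K x ∈ intUnits A F K := by
  rw [mem_intUnits_iff'] at hx ⊢
  have h1 : Algebra.norm K (x : L) * Algebra.norm K ((x : L)⁻¹) = 1 := by
    rw [← map_mul, mul_inv_cancel₀ x.ne_zero, map_one]
  rw [normUnits_coe, inv_eq_of_mul_eq_one_right h1]
  exact ⟨isInt_norm A F K L hx.1, isInt_norm A F K L hx.2⟩

end LF8

theorem normUnitsInt : NormUnitsIntStatement := by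
  intro A F _ _ _ _ _ _ _ _ _ K _ _ _ L _ _ _ _ _ x hx
  exact normUnits_mem_intUnits A F K L hx

/-! ### LF4 : automorphisms preserve the valuation -/

section LF4

variable (A F : Type) [CommRing A] [Field F] [Algebra A F]
variable (K : Type) [Field K] [Algebra F K]
variable (L : Type) [Field L] [Algebra F L] [Algebra K L] [IsScalarTower F K L]

theorem isInt_algEquiv (σ : L ≃ₐ[K] L) {x : L} (hx : IsInt A F L x) : IsInt A F L (σ x) := by
  have := IsInt.map (A := A) ((σ : L →ₐ[K] L).restrictScalars F) hx
  simpa using this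

theorem isInt_algEquiv_pow (σ : L ≃ₐ[K] L) (k : ℕ) {x : L} (hx : IsInt A F L x) :
    IsInt A F L ((σ ^ k) x) := isInt_algEquiv A F K L (σ ^ k) hx

theorem isInt_prod {ι : Type} (s : Finset ι) (f : ι → L) (h : ∀ i ∈ s, IsInt A F L (f i)) :
    IsInt A F L (∏ i ∈ s, f i) := by
  classical
  induction s using Finset.induction_on with
  | empty => simpa using isInt_one A F L
  | insert a s ha ih =>
    rw [Finset.prod_insert ha]
    exact (h a (Finset.mem_insert_self a s)).mul
      (ih (fun i hi => h i (Finset.mem_insert_of_mem hi)))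

/-- Key step: if `x / σ x` is integral then so is `σ x / x` (`σ` has finite order). -/
theorem isInt_div_of_isInt_div [FiniteDimensional K L] (σ : L ≃ₐ[K] L) (x : L) (hx : x ≠ 0)
    (hc : IsInt A F L (x / σ x)) : IsInt A F L (σ x / x) := by
  set c := x / σ x with hcdef
  have hσx : σ x ≠ 0 := by simpa using hx
  have hxc : x = c * σ x := by rw [hcdef]; field_simp
  have key : ∀ k : ℕ, x = (∏ i ∈ Finset.range k, (σ ^ i) c) * (σ ^ k) x := by
    intro k
    induction k with
    | zero => simp
    | succ k ih =>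
      rw [Finset.prod_range_succ, mul_assoc]
      have : (σ ^ k) c * (σ ^ (k + 1)) x = (σ ^ k) x := by
        rw [pow_succ, AlgEquiv.mul_apply, ← map_mul, ← hxc]
      rw [this]
      exact ih
  have hfin : IsOfFinOrder σ := isOfFinOrder_of_finite σ
  have hm : 0 < orderOf σ := hfin.orderOf_pos
  obtain ⟨m, hm'⟩ : ∃ m, orderOf σ = m + 1 := ⟨orderOf σ - 1, by omega⟩
  have h1 := key (m + 1)
  rw [← hm', pow_orderOf_eq_one, AlgEquiv.one_apply] at h1
  have h2 : (∏ i ∈ Finset.range (orderOf σ), (σ ^ i) c) = 1 :=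
    mul_right_cancel₀ hx (h1.symm.trans (one_mul x).symm)
  rw [hm', Finset.prod_range_succ', pow_zero, AlgEquiv.one_apply] at h2
  have h3 : σ x / x = ∏ i ∈ Finset.range m, (σ ^ (i + 1)) c := by
    have hc0 : c ≠ 0 := by rw [hcdef]; exact div_ne_zero hx hσx
    have : σ x / x = c⁻¹ := by rw [hcdef, inv_div]
    rw [this]
    exact inv_eq_of_mul_eq_one_left h2
  rw [h3]
  exact isInt_prod A F L _ _ (fun i _ => isInt_algEquiv_pow A F K L σ (i + 1) hc)

end LF4

theorem galoisInv : GaloisInvStatement := by
  intro A F _ _ _ _ _ _ _ _ _ K _ _ _ L _ _ _ _ _ σ x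
  have hx0 : (x : L) ≠ 0 := x.ne_zero
  have hσx0 : σ (x : L) ≠ 0 := by simp
  haveI : FiniteDimensional F L := Module.Finite.trans K L
  -- integrality of `σ x / x` for every `σ` and `x ≠ 0`
  have main : ∀ (τ : L ≃ₐ[K] L) (z : L), z ≠ 0 → IsInt A F L (τ z / z) := by
    intro τ z hz
    rcases intOrInv A F L (τ z / z) with h | h
    · exact h
    · rw [inv_div] at h
      exact isInt_div_of_isInt_div A F K L τ z hz h
  rw [mem_intUnits_iff']
  have hcoe : ((σ • x / x : Lˣ) : L) = σ (x : L) / (x : L) := by
    rw [Units.val_div_eq_div_val]; rfl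
  rw [hcoe, inv_div]
  refine ⟨main σ x hx0, ?_⟩
  have := main σ⁻¹ (σ (x : L)) hσx0
  simpa using this

end Fermat.Agent.S55.Local.H885
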